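import Mathlib.LinearAlgebra.Dimension.Constructions
import Mathlib.LinearAlgebra.FiniteDimensional.Lemmas
import Mathlib.Algebra.Polynomial.Roots
import Mathlib.Algebra.CharP.Algebra
import Mathlib.Algebra.BigOperators.Fin
import Mathlib.Algebra.CharZero.Infinite
import Mathlib.Data.Nat.Choose.Sum
import Mathlib.Tactic.FieldSimp
import Mathlib.Tactic.LinearCombination
import Mathlib.Tactic.Module

/-!
# The lines on `x₀^d + x₁^d + x₂^d + x₃^d = 0`

On a basis `u, v` of such a plane through the origin, with `r_i = v_i / u_i`, the sums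
`∑ u_i^d r_i^k` vanish for `k ≤ 3`, so the indices pair off by the value of `r_i`.
-/

set_option autoImplicit false

noncomputable section

open Polynomial

namespace FA.FermatLines

variable {K : Type*} [Field K]

/-- A line on the Fermat surface. -/
def IsLine (d : ℕ) (W : Submodule K (Fin 4 → K)) : Prop :=
  Module.finrank K W = 2 ∧ ∀ v ∈ W, ∑ i, v i ^ d = 0

/-- The partner of `0` in each of the three pairings. -/
def idxJ : Fin 3 → Fin 4 := ![1, 2, 3]

/-- The first index of the other pair. -/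
def idxK : Fin 3 → Fin 4 := ![2, 1, 1]

/-- The second index of the other pair. -/
def idxL : Fin 3 → Fin 4 := ![3, 3, 2]

theorem idx_cases (p : Fin 3) (i : Fin 4) : i = 0 ∨ i = idxJ p ∨ i = idxK p ∨ i = idxL p := by
  revert p i; decide

theorem idx_ne (p : Fin 3) : idxJ p ≠ 0 ∧ idxK p ≠ 0 ∧ idxL p ≠ 0 ∧ idxK p ≠ idxJ p ∧
    idxL p ≠ idxJ p ∧ idxL p ≠ idxK p := by
  revert p; decide

/-- The standard line: `x₀ = a x_j`, `x_k = b x_l`. -/
def stdLine (p : Fin 3) (a b : K) : Submodule K (Fin 4 → K) where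
  carrier := {v | v 0 = a * v (idxJ p) ∧ v (idxK p) = b * v (idxL p)}
  zero_mem' := by simp
  add_mem' := by
    rintro u v ⟨h₁, h₂⟩ ⟨h₃, h₄⟩
    exact ⟨by simp [h₁, h₃, mul_add], by simp [h₂, h₄, mul_add]⟩
  smul_mem' := by
    rintro c v ⟨h₁, h₂⟩
    refine ⟨?_, ?_⟩ <;> simp [h₁, h₂] <;> ring

theorem mem_stdLine {p : Fin 3} {a b : K} {v : Fin 4 → K} :
    v ∈ stdLine p a b ↔ v 0 = a * v (idxJ p) ∧ v (idxK p) = b * v (idxL p) := Iff.rfl

/-- Coordinates on the standard line. -/
def stdEquiv (p : Fin 3) (a b : K) : (K × K) ≃ₗ[K] stdLine p a b where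
  toFun s := ⟨fun i => if i = 0 then a * s.1 else if i = idxJ p then s.1
    else if i = idxK p then b * s.2 else s.2, by
      obtain ⟨h₁, h₂, h₃, h₄, h₅, h₆⟩ := idx_ne p
      simp [mem_stdLine, h₁, h₂, h₃, h₄, h₅, h₆]⟩
  invFun v := (v.1 (idxJ p), v.1 (idxL p))
  left_inv s := by
    obtain ⟨h₁, h₂, h₃, h₄, h₅, h₆⟩ := idx_ne p
    simp [h₁, h₃, h₅, h₆]
  right_inv v := by
    obtain ⟨h₁, h₂, h₃, h₄, h₅, h₆⟩ := idx_ne p
    obtain ⟨v, e₁, e₂⟩ := v
    refine Subtype.ext (funext fun i => ?_)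
    rcases idx_cases p i with rfl | rfl | rfl | rfl <;>
      simp [h₁, h₂, h₃, h₄, h₅, h₆, e₁, e₂]
  map_add' s t := by
    ext i
    simp only [Submodule.coe_add, Pi.add_apply, Prod.fst_add, Prod.snd_add]
    split_ifs <;> ring
  map_smul' c s := by
    ext i
    simp only [Submodule.coe_smul, Pi.smul_apply, Prod.smul_fst, Prod.smul_snd, smul_eq_mul,
      RingHom.id_apply]
    split_ifs <;> ring

theorem finrank_stdLine (p : Fin 3) (a b : K) : Module.finrank K (stdLine p a b) = 2 := by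
  rw [← (stdEquiv p a b).finrank_eq, Module.finrank_prod, Module.finrank_self]

theorem sum_idx {M : Type*} [AddCommMonoid M] (p : Fin 3) (f : Fin 4 → M) :
    ∑ i, f i = f 0 + f (idxJ p) + (f (idxK p) + f (idxL p)) := by
  fin_cases p <;> simp [Fin.sum_univ_four, idxJ, idxK, idxL] <;> abel

theorem isLine_stdLine {d : ℕ} (p : Fin 3) {a b : K} (ha : a ^ d = -1) (hb : b ^ d = -1) :
    IsLine d (stdLine p a b) := by
  refine ⟨finrank_stdLine p a b, fun v hv => ?_⟩
  rw [sum_idx p, hv.1, hv.2, mul_pow, mul_pow, ha, hb]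
  ring

open scoped Classical

theorem class_sum {c r : Fin 4 → K} (h : ∀ k ≤ 3, ∑ i, c i * r i ^ k = 0) (i₀ : Fin 4) :
    ∑ i ∈ Finset.univ.filter (fun i => r i = r i₀), c i = 0 := by
  classical
  set S := Finset.univ.filter fun i => r i ≠ r i₀
  set P : K[X] := ∏ j ∈ S, (X - C (r j))
  have hdeg : P.natDegree < 4 := by
    have : P.natDegree = S.card := natDegree_finsetProd_X_sub_C_eq_card S r
    rw [this]
    refine (Finset.card_lt_card (s := S) (t := Finset.univ) ?_).trans_eq (by simp)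
    exact Finset.filter_ssubset.2 ⟨i₀, Finset.mem_univ _, by simp⟩
  have hsum : ∑ i, c i * P.eval (r i) = 0 := by
    simp_rw [eval_eq_sum_range' hdeg, Finset.mul_sum]
    rw [Finset.sum_comm]
    refine Finset.sum_eq_zero fun k hk => ?_
    have := h k (by have := Finset.mem_range.1 hk; omega)
    calc ∑ i, c i * (P.coeff k * r i ^ k) = P.coeff k * ∑ i, c i * r i ^ k := by
          rw [Finset.mul_sum]; exact Finset.sum_congr rfl fun i _ => by ring
      _ = 0 := by rw [this, mul_zero]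
  have h0 : P.eval (r i₀) ≠ 0 := by
    simp only [P, eval_prod, eval_sub, eval_X, eval_C]
    refine Finset.prod_ne_zero_iff.2 fun j hj => sub_ne_zero.2 ?_
    simp only [S, Finset.mem_filter] at hj
    exact hj.2.symm
  refine (mul_eq_zero.1 (show P.eval (r i₀) *
    ∑ i ∈ Finset.univ.filter (fun i => r i = r i₀), c i = 0 from ?_)).resolve_left h0
  rw [← hsum, Finset.mul_sum, Finset.sum_filter]
  refine Finset.sum_congr rfl fun i _ => ?_
  split_ifs with e
  · rw [e, mul_comm]
  · have : P.eval (r i) = 0 := by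
      simp only [P, eval_prod, eval_sub, eval_X, eval_C]
      exact Finset.prod_eq_zero (i := i) (by simpa [S] using e) (sub_self _)
    rw [this, mul_zero]

omit [Field K] in
theorem exists_pairing {S : Fin 4 → Prop} {r : Fin 4 → K}
    (hpartner : ∀ i, S i → ∃ j, j ≠ i ∧ S j ∧ r j = r i)
    (htwo : ∃ i j, S i ∧ S j ∧ r i ≠ r j) :
    ∃ p, (∀ i, S i) ∧ r 0 = r (idxJ p) ∧ r (idxK p) = r (idxL p) ∧ r 0 ≠ r (idxK p) := by
  obtain ⟨i, j, hi, hj, hij⟩ := htwo
  obtain ⟨i', hi', Si', ei⟩ := hpartner i hi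
  obtain ⟨j', hj', Sj', ej⟩ := hpartner j hj
  have hall : ∀ m, m = i ∨ m = i' ∨ m = j ∨ m = j' := by
    have n₁ : i ≠ j := fun e => hij (e ▸ rfl)
    have n₂ : i ≠ j' := fun e => hij (e ▸ ej)
    have n₃ : i' ≠ j := fun e => hij (ei.symm.trans (e ▸ rfl))
    have n₄ : i' ≠ j' := fun e => hij (ei.symm.trans (e ▸ ej))
    intro m
    omega
  have hS : ∀ m, S m := fun m => by rcases hall m with rfl | rfl | rfl | rfl <;> assumption
  have hval : ∀ m, r m = r i ∨ r m = r j := fun m => by
    rcases hall m with rfl | rfl | rfl | rfl <;> simp [ei, ej]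
  obtain ⟨q, hq, -, eq⟩ := hpartner 0 (hS 0)
  obtain ⟨p, rfl⟩ : ∃ p, idxJ p = q :=
    (by decide : ∀ q : Fin 4, q ≠ 0 → ∃ p, idxJ p = q) q hq
  obtain ⟨h₁, h₂, h₃, h₄, h₅, h₆⟩ := idx_ne p
  refine ⟨p, hS, eq.symm, ?_, ?_⟩
  · obtain ⟨k', hk', -, ek⟩ := hpartner (idxK p) (hS _)
    obtain ⟨l', hl', -, el⟩ := hpartner (idxL p) (hS _)
    by_contra hne
    rcases idx_cases p k' with rfl | rfl | rfl | rfl
    all_goals first | exact hk' rfl | exact hne ek.symm | skip
    all_goals rcases idx_cases p l' with rfl | rfl | rfl | rfl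
    all_goals first | exact hl' rfl | exact hne el | exact hne (by rw [← ek, ← el, eq]) |
      exact hne (by rw [← ek, ← el])
  · intro e
    have key : ∀ m, r m = r 0 := fun m => by
      rcases idx_cases p m with rfl | rfl | rfl | rfl
      · rfl
      · exact eq
      · exact e.symm
      · obtain ⟨l', hl', -, el⟩ := hpartner (idxL p) (hS _)
        rcases idx_cases p l' with rfl | rfl | rfl | rfl
        · exact el.symm
        · exact el.symm.trans eq
        · exact el.symm.trans e.symm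
        · exact absurd rfl hl'
    exact hij ((key i).trans (key j).symm)

variable [CharZero K]

theorem power_sums {d : ℕ} {u v : Fin 4 → K}
    (h : ∀ s : K, ∑ i, (u i + s * v i) ^ d = 0) {k : ℕ} (hk : k ≤ d) :
    ∑ i, u i ^ (d - k) * v i ^ k = 0 := by
  have hP : ∑ i, (C (v i) * X + C (u i)) ^ d = (0 : K[X]) :=
    Polynomial.funext fun s => by
      rw [eval_finsetSum, eval_zero, ← h s]
      exact Finset.sum_congr rfl fun i _ => by simp; ring
  have := congrArg (fun P : K[X] => P.coeff k) hP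
  simp only [finsetSum_coeff, coeff_zero, add_pow, mul_pow, ← C_pow, ← C_eq_natCast] at this
  have hterm : ∀ i, ∑ j ∈ Finset.range (d + 1),
      (C (v i ^ j) * X ^ j * C (u i ^ (d - j)) * C ((d.choose j : ℕ) : K)).coeff k =
      v i ^ k * u i ^ (d - k) * (d.choose k : K) := by
    intro i
    have hC : ∀ j, C (v i ^ j) * X ^ j * C (u i ^ (d - j)) * C ((d.choose j : ℕ) : K) =
        C (v i ^ j * u i ^ (d - j) * (d.choose j : K)) * X ^ j := fun j => by
      simp only [C_mul]; ring
    rw [Finset.sum_eq_single k]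
    · rw [hC, coeff_C_mul_X_pow, if_pos rfl]
    · intro j _ hj; rw [hC, coeff_C_mul_X_pow, if_neg hj.symm]
    · intro hk'; exact absurd (Finset.mem_range.2 (by omega)) hk'
  rw [Finset.sum_congr rfl fun i _ => hterm i, ← Finset.sum_mul] at this
  have hc : (d.choose k : K) ≠ 0 := Nat.cast_ne_zero.2 (Nat.choose_pos hk).ne'
  simpa [mul_comm] using (mul_eq_zero.1 this).resolve_right hc

theorem classification {d : ℕ} (hd : 3 ≤ d) {W : Submodule K (Fin 4 → K)} (hW : IsLine d W) :
    ∃ p a b, a ^ d = -1 ∧ b ^ d = -1 ∧ W = stdLine p a b := by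
  classical
  obtain ⟨hrank, hval⟩ := hW
  obtain ⟨B⟩ : Nonempty (Module.Basis (Fin 2) K W) := ⟨Module.finBasisOfFinrankEq K W hrank⟩
  set u₀ : Fin 4 → K := (B 0).1 with hu₀
  set v : Fin 4 → K := (B 1).1 with hv
  have hspan : ∀ w ∈ W, ∃ s t, w = s • u₀ + t • v := fun w hw => by
    refine ⟨B.repr ⟨w, hw⟩ 0, B.repr ⟨w, hw⟩ 1, ?_⟩
    have := B.sum_repr ⟨w, hw⟩
    rw [Fin.sum_univ_two] at this
    exact (congrArg Subtype.val this).symm
  obtain ⟨s, hs⟩ : ∃ s : K, ∀ i, u₀ i + s * v i = 0 → u₀ i = 0 ∧ v i = 0 := by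
    have hfin : (Set.range fun i => -u₀ i / v i).Finite := Set.finite_range _
    obtain ⟨s, hs⟩ := hfin.infinite_compl.nonempty
    refine ⟨s, fun i e => ?_⟩
    by_cases hv0 : v i = 0
    · exact ⟨by simpa [hv0] using e, hv0⟩
    · exact absurd ⟨i, by rw [div_eq_iff hv0]; linear_combination -e⟩ hs
  set u := u₀ + s • v with hu
  have huW : u ∈ W := W.add_mem (B 0).2 (W.smul_mem _ (B 1).2)
  have hsums : ∀ k ≤ 3, ∑ i, u i ^ d * (v i / u i) ^ k = 0 := by
    intro k hk
    rw [← power_sums (u := u) (v := v) (fun t => ?_) (hk.trans hd)]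
    · refine Finset.sum_congr rfl fun i _ => ?_
      by_cases h0 : u i = 0
      · obtain ⟨-, e⟩ := hs i (by simpa [hu] using h0)
        rcases Nat.eq_zero_or_pos k with rfl | hk0
        · simp
        · simp [h0, e, zero_pow hk0.ne', zero_pow (show d ≠ 0 by omega)]
      · rw [div_pow, mul_div_assoc', eq_comm, eq_div_iff (pow_ne_zero _ h0)]
        rw [mul_right_comm, ← pow_add, Nat.sub_add_cancel (hk.trans hd)]
    · simpa using hval _ (W.add_mem huW (W.smul_mem t (B 1).2))
  set r := fun i => v i / u i with hr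
  have hpartner : ∀ i, u i ≠ 0 → ∃ j, j ≠ i ∧ u j ≠ 0 ∧ r j = r i := by
    intro i hi
    by_contra hcon
    push Not at hcon
    have := class_sum (c := fun i => u i ^ d) hsums i
    rw [Finset.sum_eq_single i] at this
    · exact pow_ne_zero _ hi this
    · intro j hj hji
      by_contra hne
      exact hcon j hji (fun e => hne (by simp [e, zero_pow (show d ≠ 0 by omega)]))
        (Finset.mem_filter.1 hj).2
    · simp
  have htwo : ∃ i j, u i ≠ 0 ∧ u j ≠ 0 ∧ r i ≠ r j := by
    by_contra hcon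
    push Not at hcon
    obtain ⟨ρ, hρ⟩ : ∃ ρ, v = ρ • u := by
      by_cases hex : ∃ i, u i ≠ 0
      · obtain ⟨i, hi⟩ := hex
        refine ⟨r i, funext fun j => ?_⟩
        by_cases hj : u j = 0
        · simp [hj, (hs j (by simpa [hu] using hj)).2]
        · rw [Pi.smul_apply, smul_eq_mul, hcon i j hi hj]
          simp [hr, hj]
      · push Not at hex
        exact ⟨0, funext fun j => by simp [(hs j (by simpa [hu] using hex j)).2]⟩
    have := Fintype.linearIndependent_iff.1 B.linearIndependent ![-ρ, 1 - ρ * s] (Subtype.ext (by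
      simp [Fin.sum_univ_two, ← hu₀, ← hv]
      rw [hu] at hρ
      funext m
      have := congrFun hρ m
      simp at this ⊢
      linear_combination this))
    have h0 := this 0
    have h1 := this 1
    simp at h0 h1
    simp [h0] at h1
  obtain ⟨p, hS, e₁, e₂, hne⟩ := exists_pairing hpartner htwo
  obtain ⟨h₁, h₂, h₃, h₄, h₅, h₆⟩ := idx_ne p
  have two : ∀ i j, i ≠ j → (∀ m, r m = r i → m = i ∨ m = j) → r j = r i →
      (u i / u j) ^ d = -1 ∧ v i = u i / u j * v j := by
    intro i j hij honly e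
    have := class_sum (c := fun i => u i ^ d) hsums i
    rw [show Finset.univ.filter (fun m => r m = r i) = {i, j} by
      ext m
      simp only [Finset.mem_filter, Finset.mem_univ, true_and, Finset.mem_insert,
        Finset.mem_singleton]
      exact ⟨honly m, by rintro (rfl | rfl); exacts [rfl, e]⟩, Finset.sum_pair hij] at this
    refine ⟨?_, ?_⟩
    · rw [div_pow, div_eq_iff (pow_ne_zero _ (hS j))]
      linear_combination this
    · simp only [hr] at e
      rw [div_eq_div_iff (hS j) (hS i)] at e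
      field_simp [hS j]
      linear_combination -e
  have cls₀ := two 0 (idxJ p) h₁.symm (fun m hm => by
    rcases idx_cases p m with rfl | rfl | rfl | rfl
    · exact Or.inl rfl
    · exact Or.inr rfl
    · exact absurd hm.symm hne
    · exact absurd (hm.symm.trans e₂.symm) hne) e₁.symm
  have clsK := two (idxK p) (idxL p) h₆.symm (fun m hm => by
    rcases idx_cases p m with rfl | rfl | rfl | rfl
    · exact absurd hm hne
    · exact absurd (e₁.trans hm) hne
    · exact Or.inl rfl
    · exact Or.inr rfl) e₂.symm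
  refine ⟨p, _, _, cls₀.1, clsK.1, ?_⟩
  have hu' : u ∈ stdLine p (u 0 / u (idxJ p)) (u (idxK p) / u (idxL p)) :=
    ⟨(div_mul_cancel₀ _ (hS _)).symm, (div_mul_cancel₀ _ (hS _)).symm⟩
  have hv' : v ∈ stdLine p (u 0 / u (idxJ p)) (u (idxK p) / u (idxL p)) := ⟨cls₀.2, clsK.2⟩
  refine Submodule.eq_of_le_of_finrank_eq (fun w hw => ?_)
    (hrank.trans (finrank_stdLine _ _ _).symm)
  obtain ⟨c, e, rfl⟩ := hspan w hw
  rw [show c • u₀ + e • v = c • u + (e - c * s) • v by rw [hu]; module]
  exact Submodule.add_mem _ (Submodule.smul_mem _ _ hu') (Submodule.smul_mem _ _ hv')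

theorem stdLine_injective {p p' : Fin 3} {a b a' b' : K} (ha : a ≠ 0)
    (h : stdLine p a b = stdLine p' a' b') : p = p' ∧ a = a' ∧ b = b' := by
  have he : ((stdEquiv p a b) (1, 0) : Fin 4 → K) ∈ stdLine p' a' b' := h ▸ Subtype.prop _
  have hf : ((stdEquiv p a b) (0, 1) : Fin 4 → K) ∈ stdLine p' a' b' := h ▸ Subtype.prop _
  simp only [mem_stdLine, stdEquiv, LinearEquiv.coe_mk, LinearMap.coe_mk, AddHom.coe_mk] at he hf
  fin_cases p <;> fin_cases p' <;> simp [idxJ, idxK, idxL] at he hf ⊢ <;>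
    first | exact ⟨he, hf⟩ | simp_all

end FA.FermatLines
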