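import Fermat.Agent.FermatLines.Classify
import Mathlib.FieldTheory.IsAlgClosed.Basic
import Mathlib.FieldTheory.Separable
import Mathlib.Data.Set.Card
import Mathlib.Algebra.Order.Field.Basic

/-!
# Counting the lines and their meetings

Two standard lines of one pairing meet when they share a parameter; those of two different
pairings meet under one monomial equation in the four parameters.
-/

set_option autoImplicit false

noncomputable section

open Polynomial

namespace FA.FermatLines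

variable {K : Type*} [Field K]

/-- The roots of `-1`. -/
def negRoots (K : Type*) [Field K] (d : ℕ) : Set K := {a | a ^ d = -1}

theorem negRoots_ne_zero {d : ℕ} (hd : d ≠ 0) {a : K} (ha : a ∈ negRoots K d) : a ≠ 0 := by
  rintro rfl
  simp [negRoots, zero_pow hd] at ha

theorem negRoots_finite {d : ℕ} (hd : d ≠ 0) : (negRoots K d).Finite := by
  refine (finite_setOfPred_isRoot (X_pow_sub_C_ne_zero (Nat.pos_of_ne_zero hd) (-1 : K))).subset ?_
  intro a ha
  simp only [negRoots, Set.mem_ofPred_eq] at ha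
  simp [IsRoot, ha]

theorem lines_eq [CharZero K] {d : ℕ} (hd : 3 ≤ d) :
    {W : Submodule K (Fin 4 → K) | IsLine d W} =
      (fun q : Fin 3 × K × K => stdLine q.1 q.2.1 q.2.2) '' (Set.univ ×ˢ (negRoots K d ×ˢ negRoots K d)) := by
  ext W
  constructor
  · intro hW
    obtain ⟨p, a, b, ha, hb, rfl⟩ := classification hd hW
    exact ⟨(p, a, b), ⟨trivial, ha, hb⟩, rfl⟩
  · rintro ⟨⟨p, a, b⟩, ⟨-, ha, hb⟩, rfl⟩
    exact isLine_stdLine p ha hb

theorem injOn_stdLine [CharZero K] {d : ℕ} (hd : 3 ≤ d) :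
    Set.InjOn (fun q : Fin 3 × K × K => stdLine q.1 q.2.1 q.2.2)
      (Set.univ ×ˢ (negRoots K d ×ˢ negRoots K d)) := by
  rintro ⟨p, a, b⟩ ⟨-, ha, -⟩ ⟨p', a', b'⟩ - e
  obtain ⟨rfl, rfl, rfl⟩ := stdLine_injective (negRoots_ne_zero (by omega) ha) e
  rfl

theorem card_lines [CharZero K] {d : ℕ} (hd : 3 ≤ d) :
    {W : Submodule K (Fin 4 → K) | IsLine d W}.ncard = 3 * (negRoots K d).ncard ^ 2 := by
  rw [lines_eq hd, (injOn_stdLine hd).ncard_image, Set.ncard_prod, Set.ncard_prod,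
    Set.ncard_univ, Nat.card_fin, sq]

theorem ncard_negRoots [CharZero K] [IsAlgClosed K] {d : ℕ} (hd : d ≠ 0) :
    (negRoots K d).ncard = d := by
  have hp : (X ^ d - C (-1) : K[X]) ≠ 0 := X_pow_sub_C_ne_zero (Nat.pos_of_ne_zero hd) _
  have hset : negRoots K d = (X ^ d - C (-1) : K[X]).rootSet K := by
    ext a
    simp only [negRoots, Set.mem_ofPred_eq, mem_rootSet_of_ne hp]
    simp [add_eq_zero_iff_eq_neg]
  rw [hset, ← Nat.card_coe_set_eq, Nat.card_eq_fintype_card,
    card_rootSet_eq_natDegree (separable_X_pow_sub_C _ (Nat.cast_ne_zero.2 hd) (by norm_num))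
      (IsAlgClosed.splits _), natDegree_X_pow_sub_C]

theorem negRoots_ordered {F : Type*} [Field F] [LinearOrder F] [IsStrictOrderedRing F] (n : ℕ) :
    negRoots F n = if Odd n then {-1} else ∅ := by
  split_ifs with h
  · ext a
    simp only [negRoots, Set.mem_ofPred_eq, Set.mem_singleton_iff]
    exact ⟨fun e => h.strictMono_pow.injective (e.trans h.neg_one_pow.symm),
      fun e => by rw [e]; exact h.neg_one_pow⟩
  · refine Set.eq_empty_of_forall_notMem fun a (e : a ^ n = -1) => ?_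
    linarith [(Nat.not_odd_iff_even.1 h).pow_nonneg a]

/-- Two lines through the origin meet. -/
def Meets (W W' : Submodule K (Fin 4 → K)) : Prop := W ⊓ W' ≠ ⊥

theorem meets_comm {W W' : Submodule K (Fin 4 → K)} : Meets W W' ↔ Meets W' W := by
  rw [Meets, Meets, inf_comm]

theorem meets_iff {p p' : Fin 3} {a b a' b' : K} :
    Meets (stdLine p a b) (stdLine p' a' b') ↔ ∃ v : Fin 4 → K, v ≠ 0 ∧
      (v 0 = a * v (idxJ p) ∧ v (idxK p) = b * v (idxL p)) ∧
      v 0 = a' * v (idxJ p') ∧ v (idxK p') = b' * v (idxL p') := by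
  rw [Meets, Submodule.ne_bot_iff]
  exact ⟨fun ⟨v, ⟨h, h'⟩, hv⟩ => ⟨v, hv, h, h'⟩, fun ⟨v, hv, h, h'⟩ => ⟨v, ⟨h, h'⟩, hv⟩⟩

theorem meets_same {p : Fin 3} {a b a' b' : K} :
    Meets (stdLine p a b) (stdLine p a' b') ↔ a' = a ∨ b' = b := by
  obtain ⟨h₁, h₂, h₃, h₄, h₅, h₆⟩ := idx_ne p
  rw [meets_iff]
  constructor
  · rintro ⟨v, hv, ⟨e₁, e₂⟩, e₃, e₄⟩
    by_contra hne
    push Not at hne
    have hJ : v (idxJ p) = 0 := (mul_eq_zero.1 (show (a' - a) * v (idxJ p) = 0 by
      linear_combination e₁ - e₃)).resolve_left (sub_ne_zero.2 hne.1)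
    have hL : v (idxL p) = 0 := (mul_eq_zero.1 (show (b' - b) * v (idxL p) = 0 by
      linear_combination e₂ - e₄)).resolve_left (sub_ne_zero.2 hne.2)
    refine hv (funext fun i => ?_)
    rcases idx_cases p i with rfl | rfl | rfl | rfl <;> simp [e₁, e₂, hJ, hL]
  · rintro (rfl | rfl)
    · refine ⟨stdEquiv p a' b (1, 0), fun e => ?_, (stdEquiv p a' b (1, 0)).2, ?_, ?_⟩
      · simpa [stdEquiv, h₁] using congrFun e (idxJ p)
      all_goals simp [stdEquiv, h₁, h₂, h₃, h₄, h₅]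
    · refine ⟨stdEquiv p a b' (0, 1), fun e => ?_, (stdEquiv p a b' (0, 1)).2, ?_, ?_⟩
      · simpa [stdEquiv, h₃, h₅, h₆] using congrFun e (idxL p)
      all_goals simp [stdEquiv, h₁, h₂, h₃, h₄, h₅, h₆]

theorem meets01 {a b a' b' : K} :
    Meets (stdLine 0 a b) (stdLine 1 a' b') ↔ a * b' = a' * b := by
  simp only [meets_iff, idxJ, idxK, idxL, Matrix.cons_val_zero, Matrix.cons_val_one]
  constructor
  · rintro ⟨v, hv, ⟨e₁, e₂⟩, e₃, e₄⟩
    have h3 : v 3 ≠ 0 := fun h => hv (funext fun i => by fin_cases i <;> simp_all)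
    refine mul_right_cancel₀ h3 ?_
    linear_combination e₃ - e₁ + a' * e₂ - a * e₄
  · intro h
    refine ⟨![a * b', b', b, 1], fun e => by simpa using congrFun e 3, ⟨by simp, by simp⟩,
      by simpa using h, by simp⟩

theorem meets02 {a b a' b' : K} :
    Meets (stdLine 0 a b) (stdLine 2 a' b') ↔ a' = a * b * b' := by
  simp only [meets_iff, idxJ, idxK, idxL, Matrix.cons_val_zero, Matrix.cons_val_two,
    Matrix.head_cons, Matrix.tail_cons]
  constructor
  · rintro ⟨v, hv, ⟨e₁, e₂⟩, e₃, e₄⟩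
    have h3 : v 3 ≠ 0 := fun h => hv (funext fun i => by fin_cases i <;> simp_all)
    refine mul_right_cancel₀ h3 ?_
    linear_combination e₁ - e₃ + a * e₄ + a * b' * e₂
  · intro h
    refine ⟨![a * b * b', b * b', b, 1], fun e => by simpa using congrFun e 3,
      ⟨by simp [mul_assoc], by simp⟩, by simp [h], by simp [mul_comm]⟩

theorem meets12 {a b a' b' : K} (ha : a ≠ 0) :
    Meets (stdLine 1 a b) (stdLine 2 a' b') ↔ a * b = a' * b' := by
  simp only [meets_iff, idxJ, idxK, idxL, Matrix.cons_val_one, Matrix.cons_val_two,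
    Matrix.cons_val_zero, Matrix.head_cons, Matrix.tail_cons]
  constructor
  · rintro ⟨v, hv, ⟨e₁, e₂⟩, e₃, e₄⟩
    have h3 : v 3 ≠ 0 := fun h => hv (funext fun i => by fin_cases i <;> simp_all)
    refine mul_right_cancel₀ h3 ?_
    linear_combination b' * (e₃ - e₁) + a * (e₄ - e₂)
  · intro h
    refine ⟨![a', b, a' / a, 1], fun e => by simpa using congrFun e 3,
      ⟨by simp; field_simp, by simp⟩, by simp, ?_⟩
    simp
    field_simp
    linear_combination h

/-- The parameter of the meeting line in another pairing. -/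
def partnerParam (p p' : Fin 3) (a b b' : K) : K :=
  ![![a, a * b' / b, a * b * b'], ![a * b' / b, a, a * b / b'], ![a / (b' * b), a * b / b', a]] p p'

theorem meets_other {p p' : Fin 3} (hp : p ≠ p') {a b a' b' : K} (ha : a ≠ 0) (hb : b ≠ 0)
    (ha' : a' ≠ 0) (hb' : b' ≠ 0) :
    Meets (stdLine p a b) (stdLine p' a' b') ↔ a' = partnerParam p p' a b b' := by
  fin_cases p <;> fin_cases p' <;> first | exact absurd rfl hp | skip
  all_goals simp [partnerParam]
  · rw [meets01, eq_div_iff hb]; exact eq_comm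
  · exact meets02
  · rw [meets_comm, meets01, eq_div_iff hb]
  · rw [meets12 ha, eq_div_iff hb']; exact eq_comm
  · rw [meets_comm, meets02, eq_div_iff (mul_ne_zero hb' hb), ← mul_assoc]; exact eq_comm
  · rw [meets_comm, meets12 ha', eq_div_iff hb']

theorem partnerParam_mem {d : ℕ} {p p' : Fin 3} {a b b' : K} (ha : a ∈ negRoots K d)
    (hb : b ∈ negRoots K d) (hb' : b' ∈ negRoots K d) :
    partnerParam p p' a b b' ∈ negRoots K d := by
  simp only [negRoots, Set.mem_ofPred_eq] at *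
  fin_cases p <;> fin_cases p' <;> simp [partnerParam, mul_pow, div_pow, ha, hb, hb']

theorem card_meeting [CharZero K] [IsAlgClosed K] {d : ℕ} (hd : 3 ≤ d)
    {W : Submodule K (Fin 4 → K)} (hW : IsLine d W) :
    {W' : Submodule K (Fin 4 → K) | IsLine d W' ∧ W' ≠ W ∧ Meets W W'}.ncard = 4 * d - 2 := by
  classical
  have hd0 : d ≠ 0 := by omega
  obtain ⟨p, a, b, ha, hb, rfl⟩ := classification hd hW
  have ha0 := negRoots_ne_zero hd0 ha
  have hb0 := negRoots_ne_zero hd0 hb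
  set R := negRoots K d with hR
  have hRf : R.Finite := negRoots_finite hd0
  set same : Set (Fin 3 × K × K) := ({p} ×ˢ (({a} ×ˢ R) ∪ (R ×ˢ {b}))) \ {(p, a, b)} with hsame
  set other : Set (Fin 3 × K × K) :=
    (fun q : Fin 3 × K => (q.1, partnerParam p q.1 a b q.2, q.2)) '' ({p}ᶜ ×ˢ R) with hother
  have heq : {W' : Submodule K (Fin 4 → K) | IsLine d W' ∧ W' ≠ stdLine p a b ∧
      Meets (stdLine p a b) W'} =
      (fun q : Fin 3 × K × K => stdLine q.1 q.2.1 q.2.2) '' (same ∪ other) := by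
    ext W'
    constructor
    · rintro ⟨hW', hne, hm⟩
      obtain ⟨p', a', b', ha', hb', rfl⟩ := classification hd hW'
      refine ⟨(p', a', b'), ?_, rfl⟩
      by_cases hp : p = p'
      · subst hp
        refine Or.inl ⟨⟨rfl, ?_⟩, fun e => hne (by simp_all)⟩
        rcases meets_same.1 hm with rfl | rfl
        · exact Or.inl ⟨rfl, hb'⟩
        · exact Or.inr ⟨ha', rfl⟩
      · refine Or.inr ⟨(p', b'), ⟨Ne.symm hp, hb'⟩, ?_⟩
        simp only
        rw [← (meets_other hp ha0 hb0 (negRoots_ne_zero hd0 ha')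
          (negRoots_ne_zero hd0 hb')).1 hm]
    · rintro ⟨⟨p', a', b'⟩, hq, rfl⟩
      rcases hq with ⟨⟨hp', hab⟩, hne⟩ | ⟨⟨p'', b''⟩, ⟨hp', hb''⟩, e⟩
      · obtain rfl : p' = p := hp'
        have hmem : a' ∈ R ∧ b' ∈ R ∧ (a' = a ∨ b' = b) := by
          rcases hab with ⟨h₁, h₂⟩ | ⟨h₁, h₂⟩
          · obtain rfl : a' = a := h₁; exact ⟨ha, h₂, Or.inl rfl⟩
          · obtain rfl : b' = b := h₂; exact ⟨h₁, hb, Or.inr rfl⟩
        refine ⟨isLine_stdLine _ hmem.1 hmem.2.1, fun e => hne ?_, meets_same.2 hmem.2.2⟩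
        obtain ⟨-, rfl, rfl⟩ := stdLine_injective (negRoots_ne_zero hd0 hmem.1) e
        rfl
      · simp only [Prod.mk.injEq] at e
        obtain ⟨rfl, rfl, rfl⟩ := e
        have hmem := partnerParam_mem (p := p) (p' := p'') ha hb hb''
        refine ⟨isLine_stdLine _ hmem hb'', fun e => hp' ?_, (meets_other (Ne.symm hp') ha0 hb0
          (negRoots_ne_zero hd0 hmem) (negRoots_ne_zero hd0 hb'')).2 rfl⟩
        exact (stdLine_injective (negRoots_ne_zero hd0 hmem) e).1
  have hsub : same ∪ other ⊆ Set.univ ×ˢ (R ×ˢ R) := by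
    rintro ⟨p', a', b'⟩ (⟨⟨-, hab⟩, -⟩ | ⟨⟨p'', b''⟩, ⟨-, hb''⟩, e⟩)
    · rcases hab with ⟨h₁, h₂⟩ | ⟨h₁, h₂⟩
      · exact ⟨trivial, (show a' = a from h₁) ▸ ha, h₂⟩
      · exact ⟨trivial, h₁, (show b' = b from h₂) ▸ hb⟩
    · simp only [Prod.mk.injEq] at e
      obtain ⟨rfl, rfl, rfl⟩ := e
      exact ⟨trivial, partnerParam_mem ha hb hb'', hb''⟩
  have hdisj : Disjoint same other := by
    rw [Set.disjoint_left]
    rintro ⟨p', a', b'⟩ ⟨⟨hp', -⟩, -⟩ ⟨⟨p'', b''⟩, ⟨hp'', -⟩, e⟩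
    simp only [Prod.mk.injEq] at e
    exact hp'' (e.1.trans hp')
  have hs : same.ncard = 2 * d - 2 := by
    have hU : (({a} ×ˢ R) ∪ (R ×ˢ {b}) : Set (K × K)).ncard + 1 = 2 * d := by
      have hI : (({a} ×ˢ R) ∩ (R ×ˢ {b}) : Set (K × K)) = {(a, b)} := by
        ext ⟨x, y⟩
        simp only [Set.mem_inter_iff, Set.mem_prod, Set.mem_singleton_iff, Prod.mk.injEq]
        constructor
        · rintro ⟨⟨h₁, -⟩, -, h₂⟩; exact ⟨h₁, h₂⟩
        · rintro ⟨rfl, rfl⟩; exact ⟨⟨rfl, hb⟩, ha, rfl⟩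
      have h := Set.ncard_union_add_ncard_inter ({a} ×ˢ R) (R ×ˢ {b})
        ((Set.finite_singleton a).prod hRf) (hRf.prod (Set.finite_singleton b))
      rw [hI, Set.ncard_prod, Set.ncard_prod, Set.ncard_singleton, Set.ncard_singleton,
        Set.ncard_singleton, show R.ncard = d from ncard_negRoots hd0] at h
      omega
    have hmem : (p, a, b) ∈ ({p} : Set (Fin 3)) ×ˢ (({a} ×ˢ R) ∪ (R ×ˢ {b}) : Set (K × K)) :=
      ⟨rfl, Or.inl ⟨rfl, hb⟩⟩
    rw [hsame, Set.ncard_sdiff_singleton_of_mem hmem, Set.ncard_prod,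
      Set.ncard_singleton]
    omega
  have ho : other.ncard = 2 * d := by
    rw [hother, Set.InjOn.ncard_image, Set.ncard_prod, hR, ncard_negRoots hd0,
      Set.ncard_compl, Set.ncard_singleton, Nat.card_fin]
    rintro ⟨p', b'⟩ - ⟨p'', b''⟩ - e
    simp only [Prod.mk.injEq] at e
    exact Prod.ext e.1 e.2.2
  rw [heq, ((injOn_stdLine hd).mono hsub).ncard_image,
    Set.ncard_union_eq hdisj ((((Set.finite_singleton p).prod (((Set.finite_singleton a).prod
      hRf).union (hRf.prod (Set.finite_singleton b))))).sdiff)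
      (((Set.toFinite _).prod hRf).image _), hs, ho]
  omega

end FA.FermatLines
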